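import Mathlib.RingTheory.Invariant.Profinite
import Mathlib.FieldTheory.KrullTopology
import Mathlib.FieldTheory.Galois.Profinite
import Mathlib.FieldTheory.Galois.Infinite
import Mathlib.FieldTheory.IsAlgClosed.AlgebraicClosure
import Mathlib.FieldTheory.IsAlgClosed.Basic
import Mathlib.RingTheory.Valuation.ValuationSubring
import Mathlib.RingTheory.Valuation.RamificationGroup
import Mathlib.RingTheory.Polynomial.Content
import Mathlib.RingTheory.IntegralClosure.IsIntegralClosure.Basic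
import Mathlib.RingTheory.IntegralClosure.IntegrallyClosed
import Mathlib.RingTheory.Localization.Integral
import Mathlib.RingTheory.Algebraic.Integral
import Mathlib.RingTheory.Ideal.GoingUp
import Mathlib.Algebra.CharP.Frobenius
import Mathlib.Algebra.CharP.Lemmas
import Mathlib.RingTheory.PrincipalIdealDomain
import Mathlib.RingTheory.Int.Basic
import Mathlib.Tactic
import Fermat.Prelude.Def_EllipticCurve_FrobeniusTrace
/-!
# Existence of Frobenius elements in the absolute Galois group of `ℚ`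

For every prime `ℓ` there is a valuation subring `A` of `AlgebraicClosure ℚ` lying over `ℓ`
and an element `σ` of the absolute Galois group which is a Frobenius element at `A`
(in the sense of `ValuationSubring.IsFrobeniusAt`).

Strategy: let `𝓑` be the ring of all algebraic integers, `Q` a prime of `𝓑` over `ℓ`.
Mathlib's `Ideal.Quotient.stabilizerHom_surjective_of_profinite` gives `σ` in the stabilizer
of `Q` inducing `x ↦ x ^ ℓ` on `𝓑 ⧸ Q`. The localization of `𝓑` at `Q` is a valuation ring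
(by the `u, u⁻¹`-lemma), with the same residue field.
-/

set_option autoImplicit false

namespace Fermat.Agent.S54x

open Polynomial

section UU

variable {A K : Type*} [CommRing A] [Field K] [Algebra A K]

/-- The `u, u⁻¹` lemma, in an explicit localization-free form: if `B` is integrally closed
in the field `K`, `Q` is a prime of `B`, and `u ≠ 0` is a root of a polynomial over `B` not all
of whose coefficients lie in `Q`, then `u` or `u⁻¹` lies in the localization of `B` at `Q`. -/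
theorem uu_lemma (B : Subalgebra A K) (hB : ∀ x : K, IsIntegral B x → x ∈ B)
    (Q : Ideal B) [Q.IsPrime] (u : K) (hu : u ≠ 0) :
    ∀ (n : ℕ) (p : B[X]), p.natDegree ≤ n → aeval u p = 0 → (∃ i, p.coeff i ∉ Q) →
      (∃ s b : B, s ∉ Q ∧ (s : K) * u = b) ∨ (∃ s b : B, s ∉ Q ∧ (s : K) * u⁻¹ = b) := by
  intro n
  induction n with
  | zero =>
    intro p hp h0 ⟨i, hi⟩
    exfalso
    rw [Nat.le_zero] at hp
    rw [eq_C_of_natDegree_eq_zero hp, aeval_C] at h0
    have h1 : p.coeff 0 = 0 := by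
      apply Subtype.ext
      simpa using h0
    have h2 : p = 0 := by rw [eq_C_of_natDegree_eq_zero hp, h1, C_0]
    apply hi
    rw [h2, coeff_zero]
    exact Q.zero_mem
  | succ n ih =>
    intro p hp h0 hcoeff
    by_cases hdeg : p.natDegree ≤ n
    · exact ih p hdeg h0 hcoeff
    have hdeg' : p.natDegree = n + 1 := le_antisymm hp (by omega)
    -- the leading coefficient times `u` is integral, hence lies in `B`
    have hint : IsIntegral B (p.leadingCoeff • u) := isIntegral_leadingCoeff_smul p u h0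
    have hmem : (p.leadingCoeff : K) * u ∈ B := by
      have := hB _ hint
      rwa [Algebra.smul_def] at this
    set b : B := ⟨(p.leadingCoeff : K) * u, hmem⟩ with hb
    by_cases ha : p.leadingCoeff ∉ Q
    · exact Or.inl ⟨p.leadingCoeff, b, ha, rfl⟩
    rw [not_not] at ha
    -- the lower-degree polynomial
    set p' : B[X] := p.eraseLead + C b * X ^ n with hp'
    have hp'deg : p'.natDegree ≤ n := by
      refine natDegree_add_le_of_degree_le ?_ (natDegree_C_mul_X_pow_le _ _)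
      have := eraseLead_natDegree_le p
      omega
    have hp'0 : aeval u p' = 0 := by
      have h1 : aeval u p.eraseLead + (p.leadingCoeff : K) * u ^ (n + 1) = 0 := by
        have := congrArg (aeval u) (eraseLead_add_C_mul_X_pow p)
        rw [h0, map_add, map_mul, aeval_C, map_pow, aeval_X, hdeg'] at this
        exact this
      rw [hp', map_add, map_mul, aeval_C, map_pow, aeval_X]
      have h2 : (algebraMap B K) b = (p.leadingCoeff : K) * u := rfl
      rw [h2, ← h1]
      ring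
    by_cases hc : ∃ i, p'.coeff i ∉ Q
    · exact ih p' hp'deg hp'0 hc
    push Not at hc
    obtain ⟨j, hj⟩ := hcoeff
    have hjn : j = n := by
      by_contra hjn
      apply hj
      have h1 := hc j
      rw [hp', coeff_add, coeff_C_mul, coeff_X_pow, if_neg hjn, mul_zero, add_zero,
        eraseLead_coeff] at h1
      by_cases hj' : j = p.natDegree
      · rw [hj', coeff_natDegree]; exact ha
      · rwa [if_neg hj'] at h1
    subst hjn
    have h1 := hc j
    rw [hp', coeff_add, coeff_C_mul, coeff_X_pow, if_pos rfl, mul_one,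
      eraseLead_coeff, if_neg (by omega)] at h1
    have hbQ : b ∉ Q := by
      intro hbQ
      apply hj
      have := Q.sub_mem h1 hbQ
      rwa [add_sub_cancel_right] at this
    refine Or.inr ⟨b, p.leadingCoeff, hbQ, ?_⟩
    show (p.leadingCoeff : K) * u * u⁻¹ = _
    rw [mul_assoc, mul_inv_cancel₀ hu, mul_one]

/-- The localization of `B` at the prime `Q`, inside `K`, as a valuation subring. -/
def locVS (B : Subalgebra A K) (hB : ∀ x : K, IsIntegral B x → x ∈ B) (Q : Ideal B) [Q.IsPrime]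
    (halg : ∀ x : K, x ≠ 0 → ∃ p : B[X], aeval x p = 0 ∧ ∃ i, p.coeff i ∉ Q) :
    ValuationSubring K where
  carrier := {x | ∃ s b : B, s ∉ Q ∧ (s : K) * x = b}
  mul_mem' := by
    rintro x y ⟨s, b, hs, hx⟩ ⟨s', b', hs', hy⟩
    refine ⟨s * s', b * b', fun h => (Ideal.IsPrime.mem_or_mem ‹_› h).elim hs hs', ?_⟩
    push_cast
    rw [← hx, ← hy]; ring
  one_mem' := ⟨1, 1, (Ideal.ne_top_iff_one Q).mp (Ideal.IsPrime.ne_top ‹_›), by simp⟩
  add_mem' := by
    rintro x y ⟨s, b, hs, hx⟩ ⟨s', b', hs', hy⟩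
    refine ⟨s * s', b * s' + b' * s, fun h => (Ideal.IsPrime.mem_or_mem ‹_› h).elim hs hs', ?_⟩
    push_cast
    rw [← hx, ← hy]; ring
  zero_mem' := ⟨1, 0, (Ideal.ne_top_iff_one Q).mp (Ideal.IsPrime.ne_top ‹_›), by simp⟩
  neg_mem' := by
    rintro x ⟨s, b, hs, hx⟩
    refine ⟨s, -b, hs, ?_⟩
    push_cast
    rw [← hx]; ring
  mem_or_inv_mem' := fun x => by
    by_cases hx : x = 0
    · left
      subst hx
      exact ⟨1, 0, (Ideal.ne_top_iff_one Q).mp (Ideal.IsPrime.ne_top ‹_›), by simp⟩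
    · obtain ⟨p, hp0, hpc⟩ := halg x hx
      exact uu_lemma B hB Q x hx p.natDegree p le_rfl hp0 hpc

variable (B : Subalgebra A K) (hB : ∀ x : K, IsIntegral B x → x ∈ B) (Q : Ideal B) [Q.IsPrime]
    (halg : ∀ x : K, x ≠ 0 → ∃ p : B[X], aeval x p = 0 ∧ ∃ i, p.coeff i ∉ Q)

theorem mem_locVS_iff (x : K) :
    x ∈ locVS B hB Q halg ↔ ∃ s b : B, s ∉ Q ∧ (s : K) * x = b := Iff.rfl

theorem coe_mem_locVS (b : B) : (b : K) ∈ locVS B hB Q halg :=
  ⟨1, b, (Ideal.ne_top_iff_one Q).mp (Ideal.IsPrime.ne_top ‹_›), by simp⟩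

theorem inv_mem_locVS {s : B} (hs : s ∉ Q) : (s : K)⁻¹ ∈ locVS B hB Q halg := by
  refine ⟨s, 1, hs, ?_⟩
  have : (s : K) ≠ 0 := by
    intro h
    apply hs
    have : s = 0 := Subtype.ext h
    rw [this]; exact Q.zero_mem
  rw [mul_inv_cancel₀ this]; rfl

theorem coe_mem_nonunits_locVS {q : B} (hq : q ∈ Q) :
    (q : K) ∈ (locVS B hB Q halg).nonunits := by
  rw [ValuationSubring.mem_nonunits_iff_or]
  by_cases h0 : (q : K) = 0
  · exact Or.inl h0
  right
  rintro ⟨s, b, hs, h⟩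
  apply hs
  have h1 : (s : K) = b * q := by
    rw [← h, mul_assoc, inv_mul_cancel₀ h0, mul_one]
  have h2 : s = b * q := Subtype.ext (by rw [h1]; rfl)
  rw [h2]
  exact Q.mul_mem_left b hq

end UU

noncomputable section

local notation "K̄" => AlgebraicClosure ℚ
local notation "Γ" => (AlgebraicClosure ℚ ≃ₐ[ℚ] AlgebraicClosure ℚ)
local notation "𝓑" => integralClosure ℤ (AlgebraicClosure ℚ)

theorem isAlgClosure_Qbar : IsAlgClosure ℚ K̄ := by
  have h : (AlgebraicClosure.instAlgebra ℚ : Algebra ℚ K̄) = DivisionRing.toRatAlgebra :=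
    Subsingleton.elim _ _
  rw [← h]
  infer_instance

theorem isGalois_Qbar : IsGalois ℚ K̄ :=
  haveI := isAlgClosure_Qbar
  IsAlgClosure.isGalois ℚ _

theorem mem_of_isIntegral_B (x : K̄) (hx : IsIntegral 𝓑 x) : x ∈ 𝓑 :=
  isIntegral_trans x hx

theorem isInvariant_B : Algebra.IsInvariant ℤ 𝓑 Γ := by
  have := isGalois_Qbar
  refine ⟨fun b hb => ?_⟩
  have h1 : (b : K̄) ∈ Set.range (algebraMap ℚ K̄) :=
    (InfiniteGalois.mem_range_algebraMap_iff_fixed _).mpr
      (fun f => congrArg Subtype.val (hb f))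
  obtain ⟨q, hq⟩ := h1
  have h2 : IsIntegral ℤ q := by
    have := b.2
    rw [← hq] at this
    exact (isIntegral_algebraMap_iff (algebraMap ℚ K̄).injective).mp this
  obtain ⟨a, ha⟩ := IsIntegrallyClosed.algebraMap_eq_of_integral h2
  refine ⟨a, Subtype.ext ?_⟩
  rw [← hq, ← ha]
  simp

theorem stabilizer_isOpen_B (b : 𝓑) : IsOpen (MulAction.stabilizer Γ b : Set Γ) := by
  have := isGalois_Qbar
  convert stabilizer_isOpen_of_isIntegral (K := ℚ) (b : K̄) using 1
  ext g
  simp only [SetLike.mem_coe, MulAction.mem_stabilizer_iff]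
  constructor
  · intro h; exact congrArg Subtype.val h
  · intro h; exact Subtype.ext h

theorem exists_poly_B (ℓ : ℕ) (hℓ : ℓ.Prime) (Q : Ideal 𝓑)
    (hQ : Q.comap (algebraMap ℤ 𝓑) = Ideal.span {(ℓ : ℤ)}) (x : K̄) (_hx : x ≠ 0) :
    ∃ p : 𝓑[X], aeval x p = 0 ∧ ∃ i, p.coeff i ∉ Q := by
  have := isAlgClosure_Qbar
  have halg : IsAlgebraic ℤ x :=
    (IsFractionRing.isAlgebraic_iff ℤ ℚ K̄).mpr (Algebra.IsAlgebraic.isAlgebraic x)
  obtain ⟨p0, hp0, hp0x⟩ := halg
  have h1 : aeval x p0.primPart = 0 := aeval_primPart_eq_zero hp0 hp0x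
  have h2 : p0.primPart.IsPrimitive := p0.isPrimitive_primPart
  have h3 : ∃ i, ¬ ((ℓ : ℤ) ∣ p0.primPart.coeff i) := by
    by_contra hcon
    push Not at hcon
    have h4 : C (ℓ : ℤ) ∣ p0.primPart := (C_dvd_iff_dvd_coeff _ _).mpr hcon
    have h5 := h2 _ h4
    rw [Int.isUnit_iff] at h5
    have := hℓ.one_lt
    omega
  obtain ⟨i, hi⟩ := h3
  refine ⟨p0.primPart.map (algebraMap ℤ 𝓑), ?_, i, ?_⟩
  · rw [aeval_map_algebraMap]; exact h1
  · rw [coeff_map]
    intro hmem
    apply hi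
    have : p0.primPart.coeff i ∈ Q.comap (algebraMap ℤ 𝓑) := hmem
    rw [hQ, Ideal.mem_span_singleton] at this
    exact this

open scoped Pointwise

/-- Existence of a Frobenius element at the level of the ring of all algebraic integers. -/
theorem exists_frob_B (ℓ : ℕ) (hℓ : ℓ.Prime) :
    ∃ (Q : Ideal 𝓑) (_ : Q.IsPrime) (σ : Γ),
      Q.comap (algebraMap ℤ 𝓑) = Ideal.span {(ℓ : ℤ)} ∧ σ • Q = Q ∧
        ∀ b : 𝓑, σ • b - b ^ ℓ ∈ Q := by
  have := isGalois_Qbar
  have := isInvariant_B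
  have : Fact ℓ.Prime := ⟨hℓ⟩
  have hℓ' : Prime (ℓ : ℤ) := Nat.prime_iff_prime_int.mp hℓ
  let P : Ideal ℤ := Ideal.span {(ℓ : ℤ)}
  have hPmax : P.IsMaximal := PrincipalIdealRing.isMaximal_of_irreducible hℓ'.irreducible
  obtain ⟨Q, -, hQprime, hQP⟩ := Ideal.exists_ideal_over_prime_of_isIntegral P (⊥ : Ideal 𝓑)
    (by simp)
  have := hQprime
  have hQlies : Q.LiesOver P := ⟨hQP.symm⟩
  have hQmax : Q.IsMaximal :=
    Ideal.isMaximal_of_isIntegral_of_isMaximal_comap Q (by rw [hQP]; exact hPmax)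
  let _ : TopologicalSpace 𝓑 := ⊥
  have : DiscreteTopology 𝓑 := ⟨rfl⟩
  have : ContinuousSMul Γ 𝓑 := continuousSMul_iff_stabilizer_isOpen.mpr stabilizer_isOpen_B
  have hsurj := Ideal.Quotient.stabilizerHom_surjective_of_profinite (G := Γ) P Q
  -- the Frobenius automorphism of the residue field
  let _ : Field (𝓑 ⧸ Q) := Ideal.Quotient.field Q
  let _ : Field (ℤ ⧸ P) := Ideal.Quotient.field P
  have hℓQ : (ℓ : 𝓑) ∈ Q := by
    have : (ℓ : ℤ) ∈ Q.comap (algebraMap ℤ 𝓑) := by
      rw [hQP]; exact Ideal.mem_span_singleton_self _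
    simpa using this
  have : CharP (𝓑 ⧸ Q) ℓ := by
    rw [CharP.charP_iff_prime_eq_zero hℓ]
    have : ((ℓ : 𝓑) : 𝓑 ⧸ Q) = 0 := Ideal.Quotient.eq_zero_iff_mem.mpr hℓQ
    simpa using this
  let frobHom : (𝓑 ⧸ Q) →ₐ[ℤ ⧸ P] (𝓑 ⧸ Q) :=
    { frobenius (𝓑 ⧸ Q) ℓ with
      commutes' := by
        intro r
        have : (frobenius (𝓑 ⧸ Q) ℓ).comp (algebraMap (ℤ ⧸ P) (𝓑 ⧸ Q)) =
            algebraMap (ℤ ⧸ P) (𝓑 ⧸ Q) := by
          apply Ideal.Quotient.ringHom_ext
          exact RingHom.ext_int _ _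
        exact RingHom.congr_fun this r }
  have : Algebra.IsAlgebraic (ℤ ⧸ P) (𝓑 ⧸ Q) := Algebra.IsIntegral.isAlgebraic
  have hbij : Function.Bijective frobHom := Algebra.IsAlgebraic.algHom_bijective frobHom
  obtain ⟨⟨σ, hσQ⟩, hσ⟩ := hsurj (AlgEquiv.ofBijective frobHom hbij)
  refine ⟨Q, hQprime, σ, hQP, hσQ, fun b => ?_⟩
  have h1 := DFunLike.congr_fun hσ (Ideal.Quotient.mk Q b)
  rw [Ideal.Quotient.stabilizerHom_apply] at h1
  rw [← Ideal.Quotient.eq]
  have h2 : (⟨σ, hσQ⟩ : MulAction.stabilizer Γ Q) • b = σ • b := rfl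
  rw [← h2, h1]
  simp [frobHom, frobenius_def]

/-- An automorphism stabilizing `Q` maps the localization at `Q` into itself. -/
theorem smul_mem_locVS (Q : Ideal 𝓑) [Q.IsPrime]
    (halg : ∀ x : K̄, x ≠ 0 → ∃ p : 𝓑[X], aeval x p = 0 ∧ ∃ i, p.coeff i ∉ Q)
    (τ : Γ) (hτ : τ • Q = Q) (x : K̄)
    (hx : x ∈ locVS 𝓑 mem_of_isIntegral_B Q halg) :
    τ x ∈ locVS 𝓑 mem_of_isIntegral_B Q halg := by
  obtain ⟨s, b, hs, hsb⟩ := hx
  refine ⟨τ • s, τ • b, ?_, ?_⟩
  · intro h
    apply hs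
    rw [← hτ] at h
    exact (Ideal.smul_mem_pointwise_smul_iff).mp h
  · show τ (s : K̄) * τ x = τ (b : K̄)
    rw [← map_mul, hsb]

/-- **Existence of Frobenius elements**: for every prime `ℓ` there is a valuation subring of
`AlgebraicClosure ℚ` lying over `ℓ` together with a Frobenius element for it. -/
theorem exists_isFrobeniusAt (ℓ : ℕ) (hℓ : ℓ.Prime) :
    ∃ A : ValuationSubring (AlgebraicClosure ℚ), A.LiesOverPrime ℓ ∧
      ∃ σ : AlgebraicClosure ℚ ≃ₐ[ℚ] AlgebraicClosure ℚ, A.IsFrobeniusAt σ ℓ := by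
  obtain ⟨Q, hQprime, σ, hQP, hσQ, hσ⟩ := exists_frob_B ℓ hℓ
  have := hQprime
  have halg := exists_poly_B ℓ hℓ Q hQP
  set A : ValuationSubring K̄ := locVS 𝓑 mem_of_isIntegral_B Q halg with hA
  have hℓQ : (ℓ : 𝓑) ∈ Q := by
    have : (ℓ : ℤ) ∈ Q.comap (algebraMap ℤ 𝓑) := by
      rw [hQP]; exact Ideal.mem_span_singleton_self _
    simpa using this
  refine ⟨A, ?_, σ, ?_⟩
  · -- `ℓ` is a nonunit
    have := coe_mem_nonunits_locVS 𝓑 mem_of_isIntegral_B Q halg hℓQ
    simpa [ValuationSubring.LiesOverPrime] using this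
  -- `σ` lies in the decomposition group
  have hσinvQ : σ⁻¹ • Q = Q := by
    conv_lhs => rw [← hσQ]
    rw [inv_smul_smul]
  have hσA : σ ∈ A.decompositionSubgroup ℚ := by
    rw [MulAction.mem_stabilizer_iff]
    ext x
    rw [ValuationSubring.mem_pointwise_smul_iff_inv_smul_mem]
    constructor
    · intro h
      have := smul_mem_locVS Q halg σ hσQ _ h
      simpa using this
    · intro h
      exact smul_mem_locVS Q halg σ⁻¹ hσinvQ _ h
  refine ⟨hσA, fun x => ?_⟩
  obtain ⟨a, rfl⟩ := IsLocalRing.residue_surjective x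
  rw [← IsLocalRing.ResidueField.residue_smul, ← map_pow]
  obtain ⟨s, b, hs, hsb⟩ := a.2
  -- the inclusion of `𝓑` into `A`
  let ι : 𝓑 →+* A :=
    { toFun := fun b => ⟨(b : K̄), coe_mem_locVS 𝓑 mem_of_isIntegral_B Q halg b⟩
      map_one' := rfl
      map_mul' := fun _ _ => rfl
      map_zero' := rfl
      map_add' := fun _ _ => rfl }
  let r : 𝓑 →+* IsLocalRing.ResidueField A := (IsLocalRing.residue A).comp ι
  have hrQ : ∀ q ∈ Q, r q = 0 := by
    intro q hq
    show IsLocalRing.residue A (ι q) = 0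
    rw [IsLocalRing.residue_eq_zero_iff, ← ValuationSubring.coe_mem_nonunits_iff]
    exact coe_mem_nonunits_locVS 𝓑 mem_of_isIntegral_B Q halg hq
  have hrσ : ∀ b : 𝓑, r (σ • b) = r b ^ ℓ := by
    intro b
    have := hrQ _ (hσ b)
    rwa [map_sub, map_pow, sub_eq_zero] at this
  have hιs : ι s * a = ι b := Subtype.ext hsb
  have hιs' : ι (σ • s) * ((⟨σ, hσA⟩ : A.decompositionSubgroup ℚ) • a) = ι (σ • b) := by
    apply Subtype.ext
    show σ (s : K̄) * σ (a : K̄) = σ (b : K̄)
    rw [← map_mul, hsb]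
  have h1 := congrArg (IsLocalRing.residue A) hιs
  have h2 := congrArg (IsLocalRing.residue A) hιs'
  rw [map_mul] at h1 h2
  change r (σ • s) * _ = r (σ • b) at h2
  change r s * _ = r b at h1
  rw [hrσ, hrσ, ← h1, mul_pow] at h2
  have hrs : r s ≠ 0 := by
    intro h0
    have hinv : ι s * ⟨(s : K̄)⁻¹, inv_mem_locVS 𝓑 mem_of_isIntegral_B Q halg hs⟩ = 1 := by
      apply Subtype.ext
      show (s : K̄) * (s : K̄)⁻¹ = 1
      refine mul_inv_cancel₀ ?_
      intro h
      apply hs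
      have : s = 0 := Subtype.ext h
      rw [this]; exact Q.zero_mem
    have := congrArg (IsLocalRing.residue A) hinv
    rw [map_mul, map_one] at this
    change r s * _ = 1 at this
    rw [h0, zero_mul] at this
    exact zero_ne_one this
  rw [map_pow]
  exact mul_left_cancel₀ (pow_ne_zero _ hrs) h2

end

end Fermat.Agent.S54x
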