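import Mathlib
import Fermat.Prelude.Def_EllipticCurve_FrobeniusTrace

set_option autoImplicit false

open Polynomial

namespace Fermat.Agent.S54x

section Kaplansky

variable {R L : Type*} [CommRing R] [Field L] [Algebra R L]

/-- Kaplansky's `u, u⁻¹` lemma, phrased for a ring `R` integrally closed in a field `L`
and an ideal `Q` of `R`: if `u : L` is a root of a polynomial over `R` with a coefficient
outside `Q`, then `u` or `u⁻¹` is a fraction with denominator outside `Q`. -/
theorem kaplansky_aux (hinj : Function.Injective (algebraMap R L))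
    (hcl : ∀ x : L, IsIntegral R x → ∃ r : R, algebraMap R L r = x)
    (Q : Ideal R) (u : L) :
    ∀ (n : ℕ) (p : R[X]), p.natDegree = n → aeval u p = 0 → (∃ i, p.coeff i ∉ Q) →
      (∃ b s : R, s ∉ Q ∧ u * algebraMap R L s = algebraMap R L b) ∨
      (∃ b s : R, s ∉ Q ∧ u⁻¹ * algebraMap R L s = algebraMap R L b) := by
  intro n
  induction n using Nat.strong_induction_on with
  | _ n ih =>
    intro p hn hp hi
    obtain ⟨i, hi⟩ := hi
    obtain ⟨b, hb⟩ := hcl (p.leadingCoeff • u) (isIntegral_leadingCoeff_smul p u hp)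
    rw [Algebra.smul_def] at hb
    by_cases ha : p.leadingCoeff ∈ Q
    · -- the leading coefficient is in `Q`
      have hn0 : n ≠ 0 := by
        rintro rfl
        apply hi
        rw [eq_C_of_natDegree_eq_zero hn, coeff_C]
        split_ifs with h
        · have : p.leadingCoeff = p.coeff 0 := by
            rw [leadingCoeff, hn]
          rw [← this]; exact ha
        · exact Q.zero_mem
      obtain ⟨p', hp'def⟩ : ∃ p' : R[X], p' = p.eraseLead + monomial (n - 1) b := ⟨_, rfl⟩
      have hdeg : p'.natDegree < n := by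
        have h1 : p.eraseLead.natDegree ≤ n - 1 := by
          have := eraseLead_natDegree_le p
          rwa [hn] at this
        have h2 : (monomial (n - 1) b : R[X]).natDegree ≤ n - 1 := natDegree_monomial_le b
        have := natDegree_add_le_of_degree_le h1 h2
        rw [← hp'def] at this
        omega
      have hp' : aeval u p' = 0 := by
        have h1 : aeval u p = aeval u p.eraseLead + algebraMap R L p.leadingCoeff * u ^ n := by
          conv_lhs => rw [← eraseLead_add_monomial_natDegree_leadingCoeff p]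
          rw [map_add, aeval_monomial, hn]
        rw [hp'def, map_add, aeval_monomial, hb]
        have h2 : u ^ n = u * u ^ (n - 1) := by
          rw [← pow_succ']
          congr 1
          omega
        rw [hp, h2] at h1
        rw [h1]
        ring
      by_cases h' : ∃ j, p'.coeff j ∉ Q
      · exact ih _ hdeg p' rfl hp' h'
      · push Not at h'
        have hbQ : b ∉ Q := by
          intro hbQ
          apply hi
          by_cases hin : i = n
          · rw [hin, ← hn, coeff_natDegree]; exact ha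
          · have h3 := h' i
            rw [hp'def, coeff_add, eraseLead_coeff_of_ne _ (hn ▸ hin), coeff_monomial] at h3
            split_ifs at h3 with h
            · exact (Ideal.add_mem_iff_left Q hbQ).mp h3
            · simpa using h3
        have hu : u ≠ 0 := by
          rintro rfl
          apply hbQ
          rw [mul_zero] at hb
          have := hinj (hb.trans (map_zero _).symm)
          rw [this]; exact Q.zero_mem
        right
        refine ⟨p.leadingCoeff, b, hbQ, ?_⟩
        rw [hb]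
        field_simp
    · left
      exact ⟨b, p.leadingCoeff, ha, by rw [hb, mul_comm]⟩

end Kaplansky

section ValSub

variable {R L : Type*} [CommRing R] [Field L] [Algebra R L]

/-- The localisation of `R` at `Q` inside the field `L`, as a set. -/
def locSet (Q : Ideal R) : Set L :=
  {x | ∃ b s : R, s ∉ Q ∧ x * algebraMap R L s = algebraMap R L b}

theorem mem_locSet {Q : Ideal R} {x : L} :
    x ∈ locSet (L := L) Q ↔ ∃ b s : R, s ∉ Q ∧ x * algebraMap R L s = algebraMap R L b :=
  Iff.rfl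

/-- The localisation of `R` at the prime `Q` inside the field `L`, as a valuation subring,
provided `R` is integrally closed in `L` and every element of `L` is a root of a polynomial
over `R` with a coefficient outside `Q`. -/
def locValuationSubring (hinj : Function.Injective (algebraMap R L))
    (hcl : ∀ x : L, IsIntegral R x → ∃ r : R, algebraMap R L r = x)
    (Q : Ideal R) [Q.IsPrime]
    (halg : ∀ u : L, ∃ p : R[X], aeval u p = 0 ∧ ∃ i, p.coeff i ∉ Q) : ValuationSubring L where
  carrier := locSet Q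
  mul_mem' := by
    rintro x y ⟨b, s, hs, hx⟩ ⟨c, t, ht, hy⟩
    refine ⟨b * c, s * t, fun h => (Ideal.IsPrime.mem_or_mem inferInstance h).elim hs ht, ?_⟩
    rw [map_mul, map_mul, ← hx, ← hy]; ring
  one_mem' := ⟨1, 1, (Ideal.ne_top_iff_one Q).mp (Ideal.IsPrime.ne_top inferInstance), by simp⟩
  add_mem' := by
    rintro x y ⟨b, s, hs, hx⟩ ⟨c, t, ht, hy⟩
    refine ⟨b * t + c * s, s * t, fun h => (Ideal.IsPrime.mem_or_mem inferInstance h).elim hs ht, ?_⟩
    rw [map_add, map_mul, map_mul, map_mul, ← hx, ← hy]; ring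
  zero_mem' := ⟨0, 1, (Ideal.ne_top_iff_one Q).mp (Ideal.IsPrime.ne_top inferInstance), by simp⟩
  neg_mem' := by
    rintro x ⟨b, s, hs, hx⟩
    exact ⟨-b, s, hs, by rw [map_neg, ← hx]; ring⟩
  mem_or_inv_mem' := by
    intro u
    obtain ⟨p, hp, hi⟩ := halg u
    exact kaplansky_aux hinj hcl Q u _ p rfl hp hi

variable (hinj : Function.Injective (algebraMap R L))
    (hcl : ∀ x : L, IsIntegral R x → ∃ r : R, algebraMap R L r = x)
    (Q : Ideal R) [Q.IsPrime]
    (halg : ∀ u : L, ∃ p : R[X], aeval u p = 0 ∧ ∃ i, p.coeff i ∉ Q)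

theorem mem_locValuationSubring {x : L} :
    x ∈ locValuationSubring hinj hcl Q halg ↔
      ∃ b s : R, s ∉ Q ∧ x * algebraMap R L s = algebraMap R L b :=
  Iff.rfl

/-- A fraction `b / s` with `b ∈ Q`, `s ∉ Q` is a nonunit of the valuation subring. -/
theorem mem_nonunits_locValuationSubring {x : L} {b s : R} (hb : b ∈ Q) (hs : s ∉ Q)
    (hx : x * algebraMap R L s = algebraMap R L b) :
    x ∈ (locValuationSubring hinj hcl Q halg).nonunits := by
  set A := locValuationSubring hinj hcl Q halg with hA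
  rw [ValuationSubring.mem_nonunits_iff]
  by_cases hx0 : x = 0
  · rw [hx0, map_zero]; exact zero_lt_one
  · have hxA : x ∈ A := ⟨b, s, hs, hx⟩
    have h1 : A.valuation x ≤ 1 := (A.valuation_le_one_iff x).mpr hxA
    refine lt_of_le_of_ne h1 fun h => ?_
    have h2 : A.valuation x⁻¹ ≤ 1 := by rw [map_inv₀, h, inv_one]
    obtain ⟨c, t, ht, hy⟩ := (A.valuation_le_one_iff x⁻¹).mp h2
    have h3 : algebraMap R L (s * t) = algebraMap R L (b * c) := by
      rw [map_mul, map_mul, ← hx, ← hy]
      field_simp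
    have h4 := hinj h3
    have h5 : s * t ∈ Q := h4 ▸ Q.mul_mem_right c hb
    exact (Ideal.IsPrime.mem_or_mem inferInstance h5).elim hs ht

/-- Converse: a nonunit `x = b / s` (with `s ∉ Q`) has `b ∈ Q`. -/
theorem mem_of_mem_nonunits_locValuationSubring {x : L} {b s : R} (_hs : s ∉ Q)
    (hx : x * algebraMap R L s = algebraMap R L b)
    (hxn : x ∈ (locValuationSubring hinj hcl Q halg).nonunits) : b ∈ Q := by
  by_contra hb
  rw [ValuationSubring.mem_nonunits_iff_or] at hxn
  rcases hxn with rfl | hxn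
  · rw [zero_mul] at hx
    have := hinj (hx.symm.trans (map_zero _).symm)
    exact hb (this ▸ Q.zero_mem)
  · apply hxn
    refine ⟨s, b, hb, ?_⟩
    have hx0 : x ≠ 0 := by
      rintro rfl
      rw [zero_mul] at hx
      have := hinj (hx.symm.trans (map_zero _).symm)
      exact hb (this ▸ Q.zero_mem)
    rw [← hx]
    field_simp

section Galois

open scoped Pointwise

variable {K : Type*} [Field K] [Algebra K L]

/-- `σ` preserves (the image of) `R` and the ideal `Q`. -/
def PreservesPrime (Q : Ideal R) (σ : L ≃ₐ[K] L) : Prop :=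
  ∀ b : R, ∃ b' : R, σ (algebraMap R L b) = algebraMap R L b' ∧ (b ∈ Q ↔ b' ∈ Q)

variable {Q}

theorem PreservesPrime.map_mem {σ : L ≃ₐ[K] L} (hσ : PreservesPrime Q σ) {x : L}
    (hx : x ∈ locValuationSubring hinj hcl Q halg) :
    σ x ∈ locValuationSubring hinj hcl Q halg := by
  obtain ⟨b, s, hs, hx⟩ := hx
  obtain ⟨b', hb', -⟩ := hσ b
  obtain ⟨s', hs', hss'⟩ := hσ s
  refine ⟨b', s', fun h => hs (hss'.mpr h), ?_⟩
  rw [← hb', ← hs', ← map_mul, hx]

theorem PreservesPrime.map_mem_nonunits {σ : L ≃ₐ[K] L} (hσ : PreservesPrime Q σ) {x : L}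
    (hx : x ∈ (locValuationSubring hinj hcl Q halg).nonunits) :
    σ x ∈ (locValuationSubring hinj hcl Q halg).nonunits := by
  obtain ⟨b, s, hs, hxs⟩ := ValuationSubring.nonunits_subset hx
  have hb : b ∈ Q := mem_of_mem_nonunits_locValuationSubring hinj hcl Q halg hs hxs hx
  obtain ⟨b', hb', hbb'⟩ := hσ b
  obtain ⟨s', hs', hss'⟩ := hσ s
  refine mem_nonunits_locValuationSubring hinj hcl Q halg (hbb'.mp hb) (fun h => hs (hss'.mpr h)) ?_
  rw [← hb', ← hs', ← map_mul, hxs]

theorem PreservesPrime.mem_decompositionSubgroup {σ : L ≃ₐ[K] L} (hσ : PreservesPrime Q σ) :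
    σ ∈ (locValuationSubring hinj hcl Q halg).decompositionSubgroup K := by
  rw [MulAction.mem_stabilizer_iff]
  ext x
  rw [ValuationSubring.mem_pointwise_smul_iff_inv_smul_mem]
  constructor
  · intro h
    have := hσ.map_mem hinj hcl halg h
    rwa [AlgEquiv.smul_def, AlgEquiv.aut_inv, AlgEquiv.apply_symm_apply] at this
  · intro h
    by_contra hcon
    have h1 : (σ⁻¹ • x)⁻¹ ∈ (locValuationSubring hinj hcl Q halg).nonunits := by
      rw [ValuationSubring.inv_mem_nonunits_iff]
      exact Or.inr hcon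
    have h2 := hσ.map_mem_nonunits hinj hcl halg h1
    rw [map_inv₀, AlgEquiv.smul_def, AlgEquiv.aut_inv, AlgEquiv.apply_symm_apply,
      ValuationSubring.inv_mem_nonunits_iff] at h2
    rcases h2 with rfl | h2
    · apply hcon
      rw [smul_zero]
      exact zero_mem _
    · exact h2 h

/-- If `σ` is congruent to the `ℓ`-th power map modulo `Q` on `R`, then it is a Frobenius
element for the valuation subring `R_Q`. -/
theorem isFrobeniusAt_locValuationSubring (ℓ : ℕ) (hℓ : ℓ ≠ 0) (σ : L ≃ₐ[K] L)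
    (hσ : ∀ b : R, ∃ c ∈ Q, σ (algebraMap R L b) = algebraMap R L b ^ ℓ + algebraMap R L c) :
    (locValuationSubring hinj hcl Q halg).IsFrobeniusAt σ ℓ := by
  have hpres : PreservesPrime Q σ := by
    intro b
    obtain ⟨c, hc, hbc⟩ := hσ b
    refine ⟨b ^ ℓ + c, by rw [hbc, map_add, map_pow], ?_, ?_⟩
    · intro hb
      exact Q.add_mem (Ideal.pow_mem_of_mem Q hb ℓ (Nat.pos_of_ne_zero hℓ)) hc
    · intro h
      have : b ^ ℓ ∈ Q := (Ideal.add_mem_iff_left Q hc).mp h
      exact Ideal.IsPrime.mem_of_pow_mem inferInstance ℓ this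
  refine ⟨hpres.mem_decompositionSubgroup hinj hcl halg, fun x => ?_⟩
  obtain ⟨a, rfl⟩ := IsLocalRing.residue_surjective x
  rw [← IsLocalRing.ResidueField.residue_smul, ← map_pow, ← sub_eq_zero, ← map_sub,
    IsLocalRing.residue_eq_zero_iff, ← ValuationSubring.coe_mem_nonunits_iff]
  obtain ⟨b, s, hs, hx⟩ := a.2
  obtain ⟨cb, hcb, hb⟩ := hσ b
  obtain ⟨cs, hcs, hs'⟩ := hσ s
  have hsl : s ^ ℓ ∉ Q := fun h => hs (Ideal.IsPrime.mem_of_pow_mem inferInstance ℓ h)
  have hden : (s ^ ℓ + cs) * s ^ ℓ ∉ Q := by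
    intro h
    rcases Ideal.IsPrime.mem_or_mem inferInstance h with h | h
    · exact hsl ((Ideal.add_mem_iff_left Q hcs).mp h)
    · exact hsl h
  have hnum : cb * s ^ ℓ - b ^ ℓ * cs ∈ Q :=
    Q.sub_mem (Q.mul_mem_right _ hcb) (Q.mul_mem_left _ hcs)
  refine mem_nonunits_locValuationSubring hinj hcl Q halg hnum hden ?_
  show (σ (a : L) - (a : L) ^ ℓ) * _ = _
  have h1 : σ (a : L) * σ (algebraMap R L s) = σ (algebraMap R L b) := by
    rw [← map_mul, hx]
  rw [hb, hs'] at h1
  simp only [map_mul, map_add, map_pow, map_sub]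
  have h2 : (a : L) ^ ℓ * algebraMap R L s ^ ℓ = algebraMap R L b ^ ℓ := by
    rw [← mul_pow, hx]
  linear_combination (algebraMap R L s ^ ℓ) * h1 - (algebraMap R L s ^ ℓ + algebraMap R L cs) * h2

end Galois

end ValSub

section Qbar

/-- Abbreviation for the ring of all algebraic integers. -/
noncomputable abbrev ZBar : Subalgebra ℤ (AlgebraicClosure ℚ) := integralClosure ℤ (AlgebraicClosure ℚ)

theorem zbar_inj : Function.Injective (algebraMap ZBar (AlgebraicClosure ℚ)) :=
  Subtype.val_injective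

theorem zbar_closed (x : AlgebraicClosure ℚ) (hx : IsIntegral ZBar x) :
    ∃ r : ZBar, algebraMap ZBar (AlgebraicClosure ℚ) r = x :=
  ⟨⟨x, isIntegral_trans x hx⟩, rfl⟩

theorem zbar_alg (ℓ : ℕ) (hℓ : ℓ.Prime) (Q : Ideal ZBar) [Q.IsPrime] (hℓQ : (ℓ : ZBar) ∈ Q)
    (u : AlgebraicClosure ℚ) : ∃ p : Polynomial ZBar, aeval u p = 0 ∧ ∃ i, p.coeff i ∉ Q := by
  have hu : IsAlgebraic ℤ u :=
    (IsFractionRing.isAlgebraic_iff ℤ ℚ (AlgebraicClosure ℚ)).mpr
      ((AlgebraicClosure.isAlgebraic ℚ).isAlgebraic u)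
  obtain ⟨f, hf0, hf⟩ := hu
  have hg : aeval u f.primPart = 0 := aeval_primPart_eq_zero hf0 hf
  have hprim : f.primPart.IsPrimitive := isPrimitive_primPart f
  have hex : ∃ i, ¬ (ℓ : ℤ) ∣ f.primPart.coeff i := by
    by_contra hcon
    push Not at hcon
    have h1 : C (ℓ : ℤ) ∣ f.primPart := (C_dvd_iff_dvd_coeff _ _).mpr hcon
    have h2 := hprim _ h1
    rw [Int.ofNat_isUnit, Nat.isUnit_iff] at h2
    exact hℓ.one_lt.ne' h2
  obtain ⟨i, hi⟩ := hex
  refine ⟨f.primPart.map (algebraMap ℤ ZBar), by rw [aeval_map_algebraMap, hg], i, ?_⟩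
  rw [coeff_map]
  intro hmem
  have hcop : IsCoprime (ℓ : ℤ) (f.primPart.coeff i) :=
    (Nat.prime_iff_prime_int.mp hℓ).irreducible.coprime_iff_not_dvd.mpr hi
  obtain ⟨m, n, hmn⟩ := hcop
  have h1 : (algebraMap ℤ ZBar m) * (ℓ : ZBar) +
      (algebraMap ℤ ZBar n) * algebraMap ℤ ZBar (f.primPart.coeff i) = 1 := by
    have := congrArg (algebraMap ℤ ZBar) hmn
    simpa using this
  have h2 : (1 : ZBar) ∈ Q := by
    rw [← h1]
    exact Q.add_mem (Q.mul_mem_left _ hℓQ) (Q.mul_mem_left _ hmem)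
  exact (Ideal.ne_top_iff_one Q).mp (Ideal.IsPrime.ne_top inferInstance) h2

/-- **Interface lemma.**  For a prime `Q ∋ ℓ` of the ring `ZBar` of all algebraic integers, the
localisation `ZBar_Q` is a valuation subring of `ℚ̄` lying over `ℓ`, and every `σ` which is
congruent to `x ↦ x ^ ℓ` modulo `Q` on `ZBar` is a Frobenius element for it. -/
theorem exists_valuationSubring_isFrobeniusAt (ℓ : ℕ) (hℓ : ℓ.Prime)
    (Q : Ideal ↥(integralClosure ℤ (AlgebraicClosure ℚ))) [Q.IsPrime]
    (hℓQ : (ℓ : ↥(integralClosure ℤ (AlgebraicClosure ℚ))) ∈ Q) :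
    ∃ A : ValuationSubring (AlgebraicClosure ℚ), A.LiesOverPrime ℓ ∧
      ∀ σ : AlgebraicClosure ℚ ≃ₐ[ℚ] AlgebraicClosure ℚ,
        (∀ b : ↥(integralClosure ℤ (AlgebraicClosure ℚ)), ∃ c ∈ Q,
          σ (b : AlgebraicClosure ℚ) = (b : AlgebraicClosure ℚ) ^ ℓ + (c : AlgebraicClosure ℚ)) →
        A.IsFrobeniusAt σ ℓ := by
  refine ⟨locValuationSubring zbar_inj zbar_closed Q (zbar_alg ℓ hℓ Q hℓQ), ?_, ?_⟩
  · refine mem_nonunits_locValuationSubring zbar_inj zbar_closed Q (zbar_alg ℓ hℓ Q hℓQ)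
      (b := (ℓ : ZBar)) (s := 1) hℓQ
      ((Ideal.ne_top_iff_one Q).mp (Ideal.IsPrime.ne_top inferInstance)) ?_
    simp
  · intro σ hσ
    exact isFrobeniusAt_locValuationSubring zbar_inj zbar_closed
      (zbar_alg ℓ hℓ Q hℓQ) ℓ hℓ.ne_zero σ hσ

end Qbar

end Fermat.Agent.S54x
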