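import Mathlib

/-!
# Existence of Frobenius elements, profinite part (helper file for S54)

For every prime `ℓ` there is a prime ideal `Q` of the ring `B` of all algebraic integers
(inside `AlgebraicClosure ℚ`) containing `ℓ`, and an element `σ` of the absolute Galois group
of `ℚ` such that `σ b ≡ b ^ ℓ` modulo `Q` for all `b : B`.
The proof applies Mathlib's `Ideal.Quotient.stabilizerHom_surjective_of_profinite`.
-/

set_option autoImplicit false
open scoped Pointwise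

noncomputable section

namespace Fermat.Agent.S54x

namespace ProfiniteFrob

abbrev Qb := AlgebraicClosure ℚ
abbrev Bz := ↥(integralClosure ℤ (AlgebraicClosure ℚ))
abbrev Gq := AlgebraicClosure ℚ ≃ₐ[ℚ] AlgebraicClosure ℚ

theorem isAlgClosure_Qb : IsAlgClosure ℚ Qb := by
  have h : (DivisionRing.toRatAlgebra : Algebra ℚ Qb) = AlgebraicClosure.instAlgebra ℚ :=
    Subsingleton.elim _ _
  rw [h]
  infer_instance

attribute [local instance] isAlgClosure_Qb

/-- The action of the absolute Galois group on the ring of all algebraic integers. -/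
@[reducible] def actBz : MulSemiringAction Gq Bz := IsIntegralClosure.MulSemiringAction ℤ ℚ Qb Bz

attribute [local instance] actBz

theorem coe_smul_Bz (σ : Gq) (b : Bz) : ((σ • b : Bz) : Qb) = σ (b : Qb) :=
  algebraMap_galRestrict_apply ℤ σ b

theorem isInvariant_Bz : Algebra.IsInvariant ℤ Bz Gq := by
  refine ⟨fun b hb => ?_⟩
  have h1 : (b : Qb) ∈ (⊥ : IntermediateField ℚ Qb) := by
    rw [InfiniteGalois.mem_bot_iff_fixed]
    intro f
    rw [← coe_smul_Bz, hb f]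
  rw [IntermediateField.mem_bot] at h1
  obtain ⟨q, hq⟩ := h1
  have hint : IsIntegral ℤ q := by
    have : IsIntegral ℤ (algebraMap ℚ Qb q) := hq ▸ b.2
    exact (isIntegral_algebraMap_iff (FaithfulSMul.algebraMap_injective ℚ Qb)).mp this
  obtain ⟨a, ha⟩ := IsIntegrallyClosed.algebraMap_eq_of_integral hint
  refine ⟨a, Subtype.ext ?_⟩
  rw [← hq, ← ha]
  simp

attribute [local instance] isInvariant_Bz

/-- discrete topology on the algebraic integers -/
@[reducible] def topBz : TopologicalSpace Bz := ⊥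
attribute [local instance] topBz

theorem discreteTopology_Bz : DiscreteTopology Bz := ⟨rfl⟩
attribute [local instance] discreteTopology_Bz

theorem continuousSMul_Bz : ContinuousSMul Gq Bz := by
  rw [continuousSMul_iff_stabilizer_isOpen]
  intro b
  convert stabilizer_isOpen_of_isIntegral (K := ℚ) (L := Qb) (b : Qb) using 1
  ext σ
  simp only [SetLike.mem_coe, MulAction.mem_stabilizer_iff]
  rw [AlgEquiv.smul_def, ← coe_smul_Bz]
  exact Subtype.ext_iff

attribute [local instance] continuousSMul_Bz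

/-- algebraic integers have `n`-th roots which are algebraic integers -/
theorem exists_pow_eq_Bz (b : Bz) {n : ℕ} (hn : 0 < n) : ∃ y : Bz, y ^ n = b := by
  obtain ⟨z, hz⟩ := IsAlgClosed.exists_pow_nat_eq (b : Qb) hn
  have hzint : IsIntegral ℤ z := by
    apply IsIntegral.of_pow hn
    rw [hz]
    exact b.2
  exact ⟨⟨z, hzint⟩, Subtype.ext (by simpa using hz)⟩

theorem frobenius_surjective_quot (Q : Ideal Bz) (ℓ : ℕ) (hℓ : 0 < ℓ) :
    Function.Surjective (fun x : Bz ⧸ Q => x ^ ℓ) := by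
  intro x
  obtain ⟨b, rfl⟩ := Ideal.Quotient.mk_surjective x
  obtain ⟨y, hy⟩ := exists_pow_eq_Bz b hℓ
  exact ⟨Ideal.Quotient.mk Q y, by simp [← map_pow, hy]⟩

theorem main (ℓ : ℕ) (hℓ : ℓ.Prime) :
    ∃ (Q : Ideal Bz) (_ : Q.IsPrime) (_ : (ℓ : Bz) ∈ Q) (σ : Gq),
      ∀ b : Bz, ∃ c ∈ Q, σ (b : Qb) = (b : Qb) ^ ℓ + (c : Qb) := by
  let P : Ideal ℤ := Ideal.span {(ℓ : ℤ)}
  have hPmax : P.IsMaximal :=
    PrincipalIdealRing.isMaximal_of_irreducible (Nat.prime_iff_prime_int.mp hℓ).irreducible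
  have hker : RingHom.ker (algebraMap ℤ Bz) ≤ P := by
    rw [(RingHom.injective_iff_ker_eq_bot _).mp (FaithfulSMul.algebraMap_injective ℤ Bz)]
    exact bot_le
  obtain ⟨Q, hQmax, hQP⟩ := Ideal.exists_ideal_over_maximal_of_isIntegral (S := Bz) P hker
  have : Q.LiesOver P := ⟨hQP.symm⟩
  have : Q.IsPrime := hQmax.isPrime
  have hℓQ : (ℓ : Bz) ∈ Q := by
    have : (ℓ : ℤ) ∈ Q.comap (algebraMap ℤ Bz) := by
      rw [hQP]; exact Ideal.subset_span rfl
    simpa using this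
  refine ⟨Q, inferInstance, hℓQ, ?_⟩
  -- the residue field and its Frobenius
  let _ : Field (Bz ⧸ Q) := Ideal.Quotient.field Q
  have : CharP (Bz ⧸ Q) ℓ := by
    rw [CharP.charP_iff_prime_eq_zero hℓ]
    have := (Ideal.Quotient.eq_zero_iff_mem (I := Q)).mpr hℓQ
    simpa using this
  have : Fact ℓ.Prime := ⟨hℓ⟩
  have : PerfectRing (Bz ⧸ Q) ℓ :=
    PerfectRing.ofSurjective (Bz ⧸ Q) ℓ (frobenius_surjective_quot Q ℓ hℓ.pos)
  let F : (Bz ⧸ Q) ≃+* (Bz ⧸ Q) := frobeniusEquiv (Bz ⧸ Q) ℓ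
  have hcomm : ∀ x : ℤ ⧸ P, F (algebraMap (ℤ ⧸ P) (Bz ⧸ Q) x) = algebraMap (ℤ ⧸ P) (Bz ⧸ Q) x := by
    intro x
    have : (F : (Bz ⧸ Q) →+* (Bz ⧸ Q)).comp (algebraMap (ℤ ⧸ P) (Bz ⧸ Q)) =
        algebraMap (ℤ ⧸ P) (Bz ⧸ Q) := by
      apply Ideal.Quotient.ringHom_ext
      exact RingHom.ext_int _ _
    exact congrArg (fun f : (ℤ ⧸ P) →+* (Bz ⧸ Q) => f x) this
  let Fa : (Bz ⧸ Q) ≃ₐ[ℤ ⧸ P] (Bz ⧸ Q) := AlgEquiv.ofRingEquiv (f := F) hcomm
  obtain ⟨g, hg⟩ := Ideal.Quotient.stabilizerHom_surjective_of_profinite (G := Gq) P Q Fa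
  refine ⟨g.1, fun b => ?_⟩
  have h1 : Ideal.Quotient.mk Q (g • b) = Ideal.Quotient.mk Q (b ^ ℓ) := by
    rw [← Ideal.Quotient.stabilizerHom_apply Q P Gq g b, hg]
    simp [Fa, F, frobeniusEquiv_apply, frobenius_def, map_pow]
  rw [Ideal.Quotient.eq] at h1
  refine ⟨_, h1, ?_⟩
  have : ((g • b : Bz) : Qb) = g.1 (b : Qb) := coe_smul_Bz g.1 b
  rw [← this]
  simp

end ProfiniteFrob

/-- **Profinite Frobenius**: for every prime `ℓ` there are a prime `Q ∋ ℓ` of the ring of all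
algebraic integers and `σ ∈ Gal(ℚ̄/ℚ)` with `σ b ≡ b ^ ℓ (mod Q)` for all algebraic integers `b`. -/
theorem exists_prime_frobenius (ℓ : ℕ) (hℓ : ℓ.Prime) :
    ∃ (Q : Ideal ↥(integralClosure ℤ (AlgebraicClosure ℚ))) (_ : Q.IsPrime)
      (_ : (ℓ : ↥(integralClosure ℤ (AlgebraicClosure ℚ))) ∈ Q)
      (σ : AlgebraicClosure ℚ ≃ₐ[ℚ] AlgebraicClosure ℚ),
      ∀ b : ↥(integralClosure ℤ (AlgebraicClosure ℚ)), ∃ c ∈ Q,
        σ (b : AlgebraicClosure ℚ) = (b : AlgebraicClosure ℚ) ^ ℓ + (c : AlgebraicClosure ℚ) :=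
  ProfiniteFrob.main ℓ hℓ

end Fermat.Agent.S54x
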